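/-
MOONSHOT S19 (#1637), block (R1)(iii), part (D1): the CONJUGATION ACTION on function algebras and
on their subalgebras (function dialect of FF2/R2/Delta.lean).  helper12.  Mathlib + FF2/R2/Delta.

`G` acts on a commutative ring `B` by ring automorphisms, on a set `X`, and on the base ring `W`
(compatibly with `W → B`).  Conjugation `(σ ⋆ f) x = σ • f (σ⁻¹ • x)` is a `W`-semilinear ring
automorphism of `X → B`; it carries `W`-subalgebras to `W`-subalgebras (`conjSub`), commutes with
`deltaHom`, `fstHom`, `sndHom` (diagonal action on `V × V`), hence preserves `IsDeltaStable`.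
`galClosure H = ⨆ σ, σ ⋆ H` is the smallest conjugation-stable subalgebra containing `H`; it is
`Δ`-stable when `H` is.
-/
import Mathlib
import Fermat.Agent.FF2.R2.Delta

set_option autoImplicit false

namespace Fermat.Agent.FF2.R1D

open Fermat.Agent.FF2.R2

section Conj

variable {G : Type*} [Group G] {B : Type*} [CommRing B] [MulSemiringAction G B]
  {X : Type*} [MulAction G X]

/-- Conjugation of functions, `(σ ⋆ f) x = σ • f (σ⁻¹ • x)`, as a ring endomorphism of `X → B`. -/
def conjHom (σ : G) : (X → B) →+* (X → B) where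
  toFun f x := σ • f (σ⁻¹ • x)
  map_one' := by funext x; exact smul_one σ
  map_mul' f g := by funext x; exact smul_mul' σ _ _
  map_zero' := by funext x; exact smul_zero σ
  map_add' f g := by funext x; exact smul_add σ _ _

@[simp] theorem conjHom_apply (σ : G) (f : X → B) (x : X) :
    conjHom σ f x = σ • f (σ⁻¹ • x) := rfl

theorem conjHom_one (f : X → B) : conjHom (1 : G) f = f := by
  funext x
  simp

theorem conjHom_mul (σ τ : G) (f : X → B) : conjHom (σ * τ) f = conjHom σ (conjHom τ f) := by
  funext x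
  simp [mul_smul, mul_inv_rev]

theorem conjHom_inv_conjHom (σ : G) (f : X → B) : conjHom σ⁻¹ (conjHom σ f) = f := by
  rw [← conjHom_mul, inv_mul_cancel, conjHom_one]

theorem conjHom_conjHom_inv (σ : G) (f : X → B) : conjHom σ (conjHom σ⁻¹ f) = f := by
  rw [← conjHom_mul, mul_inv_cancel, conjHom_one]

variable (G B X) in
/-- The conjugation action as a homomorphism into the additive endomorphisms. -/
def conjEnd : G →* AddMonoid.End (X → B) where
  toFun σ := (conjHom σ : (X → B) →+* (X → B)).toAddMonoidHom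
  map_one' := AddMonoidHom.ext fun f => conjHom_one f
  map_mul' σ τ := AddMonoidHom.ext fun f => conjHom_mul σ τ f

@[simp] theorem conjEnd_apply (σ : G) (f : X → B) : conjEnd G B X σ f = conjHom σ f := rfl

variable {W : Type*} [CommRing W] [Algebra W B] [MulSemiringAction G W]

theorem conjHom_algebraMap (hWB : ∀ (σ : G) (w : W), σ • algebraMap W B w = algebraMap W B (σ • w))
    (σ : G) (w : W) :
    conjHom σ (algebraMap W (X → B) w) = algebraMap W (X → B) (σ • w) := by
  funext x
  simp only [conjHom_apply, Pi.algebraMap_apply]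
  exact hWB σ w

theorem conjHom_smul (hWB : ∀ (σ : G) (w : W), σ • algebraMap W B w = algebraMap W B (σ • w))
    (σ : G) (w : W) (f : X → B) : conjHom σ (w • f) = (σ • w) • conjHom σ f := by
  rw [Algebra.smul_def, Algebra.smul_def, map_mul, conjHom_algebraMap hWB]

/-- The conjugate `σ ⋆ H` of a `W`-subalgebra. -/
def conjSub (hWB : ∀ (σ : G) (w : W), σ • algebraMap W B w = algebraMap W B (σ • w))
    (σ : G) (H : Subalgebra W (X → B)) : Subalgebra W (X → B) where
  carrier := {f | conjHom σ⁻¹ f ∈ H}
  mul_mem' {a b} ha hb := by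
    change conjHom σ⁻¹ (a * b) ∈ H
    rw [map_mul]
    exact H.mul_mem ha hb
  one_mem' := by
    change conjHom σ⁻¹ (1 : X → B) ∈ H
    rw [map_one]
    exact H.one_mem
  add_mem' {a b} ha hb := by
    change conjHom σ⁻¹ (a + b) ∈ H
    rw [map_add]
    exact H.add_mem ha hb
  zero_mem' := by
    change conjHom σ⁻¹ (0 : X → B) ∈ H
    rw [map_zero]
    exact H.zero_mem
  algebraMap_mem' w := by
    change conjHom σ⁻¹ (algebraMap W (X → B) w) ∈ H
    rw [conjHom_algebraMap hWB]
    exact H.algebraMap_mem _

variable (hWB : ∀ (σ : G) (w : W), σ • algebraMap W B w = algebraMap W B (σ • w))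

theorem mem_conjSub {σ : G} {H : Subalgebra W (X → B)} {f : X → B} :
    f ∈ conjSub hWB σ H ↔ conjHom σ⁻¹ f ∈ H := Iff.rfl

theorem conjHom_mem_conjSub {σ : G} {H : Subalgebra W (X → B)} {f : X → B} (hf : f ∈ H) :
    conjHom σ f ∈ conjSub hWB σ H := by
  rw [mem_conjSub, conjHom_inv_conjHom]
  exact hf

theorem mem_conjSub_iff_exists {σ : G} {H : Subalgebra W (X → B)} {f : X → B} :
    f ∈ conjSub hWB σ H ↔ ∃ h ∈ H, conjHom σ h = f :=
  ⟨fun hf => ⟨_, hf, conjHom_conjHom_inv σ f⟩, by
    rintro ⟨h, hh, rfl⟩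
    exact conjHom_mem_conjSub hWB hh⟩

theorem conjSub_one (H : Subalgebra W (X → B)) : conjSub hWB 1 H = H := by
  ext f
  rw [mem_conjSub, inv_one, conjHom_one]

theorem conjSub_mul (σ τ : G) (H : Subalgebra W (X → B)) :
    conjSub hWB (σ * τ) H = conjSub hWB σ (conjSub hWB τ H) := by
  ext f
  rw [mem_conjSub, mem_conjSub, mem_conjSub, mul_inv_rev, conjHom_mul]

theorem conjSub_mono (σ : G) {H₁ H₂ : Subalgebra W (X → B)} (h : H₁ ≤ H₂) :
    conjSub hWB σ H₁ ≤ conjSub hWB σ H₂ := fun _ hf => h hf

/-- `H ↦ σ ⋆ H` as an order automorphism of the lattice of subalgebras. -/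
def conjSubIso (σ : G) : Subalgebra W (X → B) ≃o Subalgebra W (X → B) where
  toFun := conjSub hWB σ
  invFun := conjSub hWB σ⁻¹
  left_inv H := by rw [← conjSub_mul, inv_mul_cancel, conjSub_one]
  right_inv H := by rw [← conjSub_mul, mul_inv_cancel, conjSub_one]
  map_rel_iff' {H₁ H₂} := by
    constructor
    · intro h
      have h' : conjSub hWB σ H₁ ≤ conjSub hWB σ H₂ := h
      have := conjSub_mono hWB σ⁻¹ h'
      rwa [← conjSub_mul, ← conjSub_mul, inv_mul_cancel, conjSub_one, conjSub_one] at this
    · exact conjSub_mono hWB σ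

@[simp] theorem conjSubIso_apply (σ : G) (H : Subalgebra W (X → B)) :
    conjSubIso hWB σ H = conjSub hWB σ H := rfl

/-- The smallest conjugation-stable subalgebra containing `H`. -/
def galClosure (H : Subalgebra W (X → B)) : Subalgebra W (X → B) := ⨆ σ : G, conjSub hWB σ H

theorem le_galClosure (H : Subalgebra W (X → B)) : H ≤ galClosure hWB H := by
  have := le_iSup (fun σ : G => conjSub hWB σ H) 1
  rwa [conjSub_one] at this

theorem conjSub_le_galClosure (σ : G) (H : Subalgebra W (X → B)) :
    conjSub hWB σ H ≤ galClosure hWB H :=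
  le_iSup (fun σ : G => conjSub hWB σ H) σ

theorem conjSub_galClosure (τ : G) (H : Subalgebra W (X → B)) :
    conjSub hWB τ (galClosure hWB H) = galClosure hWB H := by
  unfold galClosure
  rw [← conjSubIso_apply, OrderIso.map_iSup]
  simp only [conjSubIso_apply, ← conjSub_mul]
  exact (Equiv.mulLeft τ).iSup_congr (fun σ => rfl)

/-- `galClosure H` is stable under conjugation. -/
theorem conjHom_mem_galClosure (τ : G) {H : Subalgebra W (X → B)} {f : X → B}
    (hf : f ∈ galClosure hWB H) : conjHom τ f ∈ galClosure hWB H := by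
  have := conjHom_mem_conjSub hWB (σ := τ) hf
  rwa [conjSub_galClosure] at this

/-- A conjugation-stable subalgebra containing `H` contains `galClosure H`. -/
theorem galClosure_le {H H' : Subalgebra W (X → B)} (hH : H ≤ H')
    (hH' : ∀ (σ : G), ∀ f ∈ H', conjHom σ f ∈ H') : galClosure hWB H ≤ H' := by
  refine iSup_le fun σ f hf => ?_
  have := hH' σ _ (hH hf)
  rwa [conjHom_conjHom_inv] at this

end Conj

end Fermat.Agent.FF2.R1D
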