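/-
MOONSHOT S19 (#1637), block (R1)(iii), part (D1): conjugation preserves `Δ`-stability; the
conjugation closure of a `Δ`-stable subalgebra is `Δ`-stable.  helper12.
Mathlib + FF2/R2/Delta + FF2/R1D/ConjAction.
-/
import Mathlib
import Fermat.Agent.FF2.R2.Delta
import Fermat.Agent.FF2.R1D.ConjAction

set_option autoImplicit false

namespace Fermat.Agent.FF2.R1D

open Fermat.Agent.FF2.R2

section Delta

variable {G : Type*} [Group G] {B : Type*} [CommRing B] [MulSemiringAction G B]
  {V : Type*} [AddCommGroup V] [DistribMulAction G V]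
  {W : Type*} [CommRing W] [Algebra W B]

theorem deltaHom_conjHom (σ : G) (f : V → B) :
    deltaHom W B V (conjHom σ f) = conjHom σ (deltaHom W B V f) := by
  funext p
  simp only [deltaHom_apply, conjHom_apply, Prod.smul_fst, Prod.smul_snd, smul_add]

theorem fstHom_conjHom (σ : G) (f : V → B) :
    fstHom W B V (conjHom σ f) = conjHom σ (fstHom W B V f) := by
  funext p
  simp only [fstHom_apply, conjHom_apply, Prod.smul_fst]

theorem sndHom_conjHom (σ : G) (f : V → B) :
    sndHom W B V (conjHom σ f) = conjHom σ (sndHom W B V f) := by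
  funext p
  simp only [sndHom_apply, conjHom_apply, Prod.smul_snd]

variable [MulSemiringAction G W]
  (hWB : ∀ (σ : G) (w : W), σ • algebraMap W B w = algebraMap W B (σ • w))

/-- Conjugation carries `prodAlg H` into `prodAlg (σ ⋆ H)`. -/
theorem conjHom_mem_prodAlg (σ : G) (H : Subalgebra W (V → B)) {F : V × V → B}
    (hF : F ∈ prodAlg H) : conjHom σ F ∈ prodAlg (conjSub hWB σ H) := by
  have key : prodAlg H ≤ conjSub hWB σ⁻¹ (prodAlg (conjSub hWB σ H)) := by
    refine sup_le ?_ ?_
    · rintro _ ⟨h, hh, rfl⟩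
      rw [mem_conjSub, inv_inv]
      change conjHom σ (fstHom W B V h) ∈ prodAlg (conjSub hWB σ H)
      rw [← fstHom_conjHom]
      exact fstHom_mem_prodAlg (conjHom_mem_conjSub hWB hh)
    · rintro _ ⟨h, hh, rfl⟩
      rw [mem_conjSub, inv_inv]
      change conjHom σ (sndHom W B V h) ∈ prodAlg (conjSub hWB σ H)
      rw [← sndHom_conjHom]
      exact sndHom_mem_prodAlg (conjHom_mem_conjSub hWB hh)
  have := key hF
  rw [mem_conjSub, inv_inv] at this
  exact this

/-- A conjugate of a `Δ`-stable subalgebra is `Δ`-stable. -/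
theorem isDeltaStable_conjSub (σ : G) {H : Subalgebra W (V → B)} (hH : IsDeltaStable H) :
    IsDeltaStable (conjSub hWB σ H) := by
  intro f hf
  obtain ⟨h, hh, rfl⟩ := (mem_conjSub_iff_exists hWB).mp hf
  rw [deltaHom_conjHom]
  exact conjHom_mem_prodAlg hWB σ H (hH h hh)

/-- The conjugation closure of a `Δ`-stable subalgebra is `Δ`-stable. -/
theorem isDeltaStable_galClosure {H : Subalgebra W (V → B)} (hH : IsDeltaStable H) :
    IsDeltaStable (galClosure hWB H) := by
  unfold galClosure
  rw [iSup]
  refine IsDeltaStable.sSup ?_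
  rintro _ ⟨σ, rfl⟩
  exact isDeltaStable_conjSub hWB σ hH

end Delta

end Fermat.Agent.FF2.R1D
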