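/-
MOONSHOT S19 (#1637), block (R1)(iii), part (D1): FINITE GALOIS DESCENT, quotient form.  helper12.
Mathlib only.

Same statements as `GaloisDescent.lean` ((D1a), (D1b)), but for a (possibly infinite) group `G`
acting through an explicit homomorphism `ρ : G →* AddMonoid.End N` and a subgroup `G'` of finite
index which acts trivially on the scalars `R'` and on the elements in question (model:
`G = Gal(Ω/ℚ_ℓ)`, `G' = Gal(Ω/K')`, `R' = W(𝔽_q)`, `N = (V → Ω)` with the conjugation action, which
is NOT the `Pi` instance; this is why the action is an explicit homomorphism here).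
The trace is the sum over the coset representatives `Quotient.out q`, `q : G ⧸ G'`.
-/
import Mathlib

set_option autoImplicit false

namespace Fermat.Agent.FF2.R1D

open scoped BigOperators

section Quot

variable {G : Type*} [Group G] (G' : Subgroup G) [Fintype (G ⧸ G')]
  {N : Type*} [AddCommGroup N] (ρ : G →* AddMonoid.End N)

/-- The trace over the cosets of `G'` (meaningful on `G'`-fixed elements). -/
noncomputable def qtrace (n : N) : N := ∑ q : G ⧸ G', ρ (Quotient.out q) n

omit [Fintype (G ⧸ G')] in
/-- On `G'`-fixed elements the action of `σ` only depends on the coset `σ G'`. -/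
theorem out_apply_eq {n : N} (hn : ∀ τ ∈ G', ρ τ n = n) (σ : G) :
    ρ (Quotient.out (σ : G ⧸ G')) n = ρ σ n := by
  obtain ⟨h, hh⟩ := QuotientGroup.mk_out_eq_mul G' σ
  rw [hh, map_mul]
  change ρ σ (ρ (h : G) n) = ρ σ n
  rw [hn _ h.2]

/-- The trace of a `G'`-fixed element is `G`-fixed. -/
theorem apply_qtrace {n : N} (hn : ∀ τ ∈ G', ρ τ n = n) (δ : G) :
    ρ δ (qtrace G' ρ n) = qtrace G' ρ n := by
  unfold qtrace
  rw [map_sum]
  have h1 : ∀ q : G ⧸ G', ρ δ (ρ (Quotient.out q) n) = ρ (Quotient.out (δ • q)) n := by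
    intro q
    have h2 : δ • q = ((δ * Quotient.out q : G) : G ⧸ G') := by
      conv_lhs => rw [← QuotientGroup.out_eq' q]
      rfl
    rw [h2, out_apply_eq G' ρ hn, map_mul]
    rfl
  simp_rw [h1]
  exact Fintype.sum_bijective (fun q : G ⧸ G' => δ • q) (MulAction.bijective δ) _ _ (fun _ => rfl)

omit [Fintype (G ⧸ G')] in
theorem out_mem_iff (q : G ⧸ G') : Quotient.out q ∈ G' ↔ q = ((1 : G) : G ⧸ G') := by
  constructor
  · intro h
    rw [← QuotientGroup.out_eq' q, QuotientGroup.eq]
    exact G'.mul_mem (G'.inv_mem h) G'.one_mem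
  · intro h
    have h1 : ((Quotient.out q : G) : G ⧸ G') = ((1 : G) : G ⧸ G') := by
      rw [QuotientGroup.out_eq' q, h]
    rw [QuotientGroup.eq] at h1
    have h2 := G'.inv_mem h1
    simpa using h2

variable {R' : Type*} [CommRing R'] [MulSemiringAction G R'] [Module R' N]

/-- The action on the scalars, as a homomorphism. -/
def scalarEnd (G R' : Type*) [Group G] [CommRing R'] [MulSemiringAction G R'] :
    G →* AddMonoid.End R' where
  toFun σ := { toFun := fun r => σ • r, map_zero' := smul_zero σ, map_add' := smul_add σ }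
  map_one' := AddMonoidHom.ext fun r => one_smul G r
  map_mul' σ τ := AddMonoidHom.ext fun r => mul_smul σ τ r

@[simp] theorem scalarEnd_apply (σ : G) (r : R') : scalarEnd G R' σ r = σ • r := rfl

/-- **(D1a), quotient form.** A `G`-stable `R'`-submodule of `G'`-fixed elements is spanned by its
`G`-fixed elements, given a Galois basis `b, bd` of `R'` relative to `G ⧸ G'`. -/
theorem span_fixed_eq_of_quot {ι : Type*} [Fintype ι] (b bd : ι → R')
    (hb1 : ∑ i, b i * bd i = 1)
    (hb0 : ∀ σ : G, σ ∉ G' → ∑ i, b i * σ • bd i = 0)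
    (hR' : ∀ τ ∈ G', ∀ r : R', τ • r = r)
    (hsl : ∀ (σ : G) (r : R') (n : N), ρ σ (r • n) = (σ • r) • ρ σ n)
    (M : Submodule R' N) (hM : ∀ (σ : G), ∀ m ∈ M, ρ σ m ∈ M)
    (hM' : ∀ τ ∈ G', ∀ m ∈ M, ρ τ m = m) :
    Submodule.span R' {m | m ∈ M ∧ ∀ σ : G, ρ σ m = m} = M := by
  classical
  apply le_antisymm
  · exact Submodule.span_le.mpr (fun m hm => hm.1)
  · intro m hm
    have hb : ∀ σ : G, ∑ i, b i * σ • bd i = if σ ∈ G' then 1 else 0 := by
      intro σ
      by_cases hσ : σ ∈ G'
      · rw [if_pos hσ]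
        simp_rw [hR' σ hσ]
        exact hb1
      · rw [if_neg hσ]
        exact hb0 σ hσ
    have key : m = ∑ i, b i • qtrace G' ρ (bd i • m) := by
      symm
      calc ∑ i, b i • qtrace G' ρ (bd i • m)
          = ∑ i, ∑ q : G ⧸ G', (b i * (Quotient.out q) • bd i) • ρ (Quotient.out q) m := by
            refine Finset.sum_congr rfl (fun i _ => ?_)
            unfold qtrace
            rw [Finset.smul_sum]
            refine Finset.sum_congr rfl (fun q _ => ?_)
            rw [hsl, smul_smul]
        _ = ∑ q : G ⧸ G', (∑ i, b i * (Quotient.out q) • bd i) • ρ (Quotient.out q) m := by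
            rw [Finset.sum_comm]
            refine Finset.sum_congr rfl (fun q _ => ?_)
            rw [Finset.sum_smul]
        _ = ∑ q : G ⧸ G', (if Quotient.out q ∈ G' then (1 : R') else 0) •
              ρ (Quotient.out q) m := by
            refine Finset.sum_congr rfl (fun q _ => ?_)
            rw [hb]
        _ = m := by
            rw [Finset.sum_eq_single (((1 : G) : G ⧸ G'))]
            · have h1 : Quotient.out (((1 : G) : G ⧸ G')) ∈ G' := (out_mem_iff G' _).mpr rfl
              rw [if_pos h1, one_smul, hM' _ h1 m hm]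
            · intro q _ hq
              rw [if_neg (fun h => hq ((out_mem_iff G' q).mp h)), zero_smul]
            · intro h
              exact absurd (Finset.mem_univ _) h
    rw [key]
    refine Submodule.sum_mem _ (fun i _ => Submodule.smul_mem _ _ (Submodule.subset_span ?_))
    refine ⟨Submodule.sum_mem _ (fun q _ => hM _ _ (M.smul_mem _ hm)), fun δ => ?_⟩
    refine apply_qtrace G' ρ (fun τ hτ => ?_) δ
    rw [hsl, hR' τ hτ, hM' τ hτ m hm]

/-- **(D1b), quotient form.** The `G`-fixed elements of `R' • P` are in `P`, for an additive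
subgroup `P` of `G`-fixed elements stable under the `G`-fixed scalars, provided some `c : R'` has
trace `1`. -/
theorem mem_of_mem_span_of_fixed_quot (c : R')
    (hc : ∑ q : G ⧸ G', (Quotient.out q : G) • c = 1)
    (hR' : ∀ τ ∈ G', ∀ r : R', τ • r = r)
    (hsl : ∀ (σ : G) (r : R') (n : N), ρ σ (r • n) = (σ • r) • ρ σ n)
    (P : AddSubgroup N) (hPfix : ∀ p ∈ P, ∀ σ : G, ρ σ p = p)
    (hPsmul : ∀ r : R', (∀ σ : G, σ • r = r) → ∀ p ∈ P, r • p ∈ P)
    {x : N} (hx : x ∈ Submodule.span R' (P : Set N)) (hxfix : ∀ σ : G, ρ σ x = x) : x ∈ P := by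
  -- the action on the scalars, as a homomorphism
  let θ : G →* AddMonoid.End R' := scalarEnd G R'
  have hθ : ∀ (σ : G) (r : R'), θ σ r = σ • r := fun _ _ => rfl
  have hfixR : ∀ c' : R', ∀ δ : G, δ • (∑ q : G ⧸ G', (Quotient.out q : G) • c') =
      ∑ q : G ⧸ G', (Quotient.out q : G) • c' := by
    intro c' δ
    have := apply_qtrace G' θ (n := c') (fun τ hτ => by rw [hθ]; exact hR' τ hτ c') δ
    simpa only [qtrace, hθ] using this
  have key : ∀ y ∈ Submodule.span R' (P : Set N), ∀ c' : R', qtrace G' ρ (c' • y) ∈ P := by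
    intro y hy
    induction hy using Submodule.span_induction with
    | mem p hp =>
      intro c'
      have h1 : qtrace G' ρ (c' • p) = (∑ q : G ⧸ G', (Quotient.out q : G) • c') • p := by
        unfold qtrace
        rw [Finset.sum_smul]
        refine Finset.sum_congr rfl (fun q _ => ?_)
        rw [hsl, hPfix p hp]
      rw [h1]
      exact hPsmul _ (hfixR c') p hp
    | zero =>
      intro c'
      unfold qtrace
      simp only [smul_zero, map_zero, Finset.sum_const_zero]
      exact P.zero_mem
    | add y z _ _ hy hz =>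
      intro c'
      have h1 : qtrace G' ρ (c' • (y + z)) = qtrace G' ρ (c' • y) + qtrace G' ρ (c' • z) := by
        unfold qtrace
        simp only [smul_add, map_add, Finset.sum_add_distrib]
      rw [h1]
      exact P.add_mem (hy c') (hz c')
    | smul r y _ hy =>
      intro c'
      have := hy (c' * r)
      simpa only [mul_smul] using this
  have h2 := key x hx c
  have h3 : qtrace G' ρ (c • x) = x := by
    unfold qtrace
    calc ∑ q : G ⧸ G', ρ (Quotient.out q) (c • x)
        = ∑ q : G ⧸ G', ((Quotient.out q : G) • c) • x := by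
          refine Finset.sum_congr rfl (fun q _ => ?_)
          rw [hsl, hxfix]
      _ = x := by rw [← Finset.sum_smul, hc, one_smul]
  rwa [h3] at h2

/-- A trace-one element from a Galois basis when the fixed scalars form a local ring `R0` whose
maximal ideal is generated by `π` and `π` is not a unit of `R'`. -/
theorem exists_qtrace_eq_one {R0 : Type*} [CommRing R0] [IsLocalRing R0] [Algebra R0 R']
    {ι : Type*} [Fintype ι] (b bd : ι → R')
    (hb1 : ∑ i, b i * bd i = 1)
    (hb0 : ∀ σ : G, σ ∉ G' → ∑ i, b i * σ • bd i = 0)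
    (hR' : ∀ τ ∈ G', ∀ r : R', τ • r = r)
    (hR0 : ∀ (σ : G) (r : R0), σ • algebraMap R0 R' r = algebraMap R0 R' r)
    (hfix : ∀ r : R', (∀ σ : G, σ • r = r) → r ∈ Set.range (algebraMap R0 R'))
    (π : R0) (hπ : IsLocalRing.maximalIdeal R0 = Ideal.span {π})
    (hπ' : ¬ IsUnit (algebraMap R0 R' π)) :
    ∃ c : R', ∑ q : G ⧸ G', (Quotient.out q : G) • c = 1 := by
  classical
  let θ : G →* AddMonoid.End R' := scalarEnd G R'
  have hθ : ∀ (σ : G) (r : R'), θ σ r = σ • r := fun _ _ => rfl
  -- `1 = ∑ b i * Tr (bd i)`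
  have key : (1 : R') = ∑ i, b i * ∑ q : G ⧸ G', (Quotient.out q : G) • bd i := by
    symm
    calc ∑ i, b i * ∑ q : G ⧸ G', (Quotient.out q : G) • bd i
        = ∑ q : G ⧸ G', ∑ i, b i * (Quotient.out q : G) • bd i := by
          simp_rw [Finset.mul_sum]
          exact Finset.sum_comm
      _ = ∑ q : G ⧸ G', (if Quotient.out q ∈ G' then (1 : R') else 0) := by
          refine Finset.sum_congr rfl (fun q _ => ?_)
          by_cases hq : Quotient.out q ∈ G'
          · rw [if_pos hq]
            simp_rw [hR' _ hq]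
            exact hb1
          · rw [if_neg hq]
            exact hb0 _ hq
      _ = 1 := by
          rw [Finset.sum_eq_single (((1 : G) : G ⧸ G'))]
          · rw [if_pos ((out_mem_iff G' _).mpr rfl)]
          · intro q _ hq
            rw [if_neg (fun h => hq ((out_mem_iff G' q).mp h))]
          · intro h
            exact absurd (Finset.mem_univ _) h
  have htr : ∀ i, ∃ t : R0, algebraMap R0 R' t = ∑ q : G ⧸ G', (Quotient.out q : G) • bd i := by
    intro i
    have := hfix (∑ q : G ⧸ G', (Quotient.out q : G) • bd i) (fun δ => by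
      have := apply_qtrace G' θ (n := bd i) (fun τ hτ => by rw [hθ]; exact hR' τ hτ _) δ
      simpa only [qtrace, hθ] using this)
    obtain ⟨t, ht⟩ := this
    exact ⟨t, ht⟩
  choose t ht using htr
  by_cases hu : ∃ i, IsUnit (t i)
  · obtain ⟨i, hi⟩ := hu
    obtain ⟨u, hu⟩ := hi
    refine ⟨algebraMap R0 R' (↑u⁻¹ : R0) * bd i, ?_⟩
    have h2 : ∀ q : G ⧸ G', (Quotient.out q : G) • (algebraMap R0 R' (↑u⁻¹ : R0) * bd i) =
        algebraMap R0 R' (↑u⁻¹ : R0) * (Quotient.out q : G) • bd i := by
      intro q
      rw [smul_mul', hR0]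
    simp_rw [h2]
    rw [← Finset.mul_sum, ← ht, ← hu, ← map_mul, Units.inv_mul, map_one]
  · exfalso
    push Not at hu
    have h3 : ∀ i, ∃ s : R0, t i = π * s := by
      intro i
      have h4 : t i ∈ IsLocalRing.maximalIdeal R0 := (IsLocalRing.mem_maximalIdeal _).mpr (hu i)
      rw [hπ, Ideal.mem_span_singleton] at h4
      exact h4
    choose s hs using h3
    apply hπ'
    refine IsUnit.of_mul_eq_one (∑ i, b i * algebraMap R0 R' (s i)) ?_
    rw [key, Finset.mul_sum]
    refine Finset.sum_congr rfl (fun i _ => ?_)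
    rw [← ht, hs, map_mul]
    ring

end Quot

end Fermat.Agent.FF2.R1D
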