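/-
MOONSHOT S19 (#1637), block (R1)(iii), part (D1): FINITE GALOIS DESCENT OF `Δ`-STABLE ORDERS in the
function dialect.  helper12.  Mathlib + FF2/R2/Delta + FF2/R1D/{QuotDescent, ConjAction, ConjDelta}.

`G` (model: `Gal(Ω/ℚ_ℓ)`) acts on `B = Ω`, on the finite module `V` and on `W = W(𝔽_q)`;
`G'` (model: `Gal(Ω/K')`) is a normal subgroup of finite index acting trivially on `W`; `W0 → W`
(model: `ℤ_ℓ`) is the ring of `G`-fixed scalars; `b, bd` is a Galois basis of `W` over `W0` and `c`
has trace one.  Main result `exists_fixed_deltaStable`: a module-finite `Δ`-stable `W`-subalgebra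
`H` of `V → B` consisting of `G'`-equivariant functions yields a module-finite `Δ`-stable
`W0`-subalgebra `H0` of `G`-equivariant functions with `H ≤ W • H0`
(`H0` = the `G`-equivariant elements of the conjugation closure of `H`).
-/
import Mathlib
import Fermat.Agent.FF2.R2.Delta
import Fermat.Agent.FF2.R1D.QuotDescent
import Fermat.Agent.FF2.R1D.ConjAction
import Fermat.Agent.FF2.R1D.ConjDelta

set_option autoImplicit false

namespace Fermat.Agent.FF2.R1D

open Fermat.Agent.FF2.R2
open scoped BigOperators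

section Fixed

variable {G : Type*} [Group G] {B : Type*} [CommRing B] [MulSemiringAction G B]
  {X : Type*} [MulAction G X]

/-- The functions fixed by the conjugations in `S`, as a subalgebra over a ring `A` of scalars on
which `S` acts trivially. -/
def fixedFun (S : Set G) (A : Type*) [CommRing A] [Algebra A B]
    (hA : ∀ σ ∈ S, ∀ a : A, σ • algebraMap A B a = algebraMap A B a) :
    Subalgebra A (X → B) where
  carrier := {f | ∀ σ ∈ S, conjHom σ f = f}
  mul_mem' {a b} ha hb σ hσ := by rw [map_mul, ha σ hσ, hb σ hσ]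
  one_mem' σ _ := map_one _
  add_mem' {a b} ha hb σ hσ := by rw [map_add, ha σ hσ, hb σ hσ]
  zero_mem' σ _ := map_zero _
  algebraMap_mem' a σ hσ := by
    funext x
    simp only [conjHom_apply, Pi.algebraMap_apply]
    exact hA σ hσ a

theorem mem_fixedFun {S : Set G} {A : Type*} [CommRing A] [Algebra A B]
    {hA : ∀ σ ∈ S, ∀ a : A, σ • algebraMap A B a = algebraMap A B a} {f : X → B} :
    f ∈ fixedFun (X := X) S A hA ↔ ∀ σ ∈ S, conjHom σ f = f := Iff.rfl

end Fixed

section Closure

variable {G : Type*} [Group G] (G' : Subgroup G)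
  {B : Type*} [CommRing B] [MulSemiringAction G B]
  {X : Type*} [MulAction G X]
  {W : Type*} [CommRing W] [Algebra W B] [MulSemiringAction G W]
  (hWB : ∀ (σ : G) (w : W), σ • algebraMap W B w = algebraMap W B (σ • w))

include hWB in
/-- Conjugates of a module-finite subalgebra are module-finite. -/
theorem conjSub_fg (σ : G) {H : Subalgebra W (X → B)} (hH : H.toSubmodule.FG) :
    (conjSub hWB σ H).toSubmodule.FG := by
  classical
  obtain ⟨S, hS⟩ := hH
  refine ⟨S.image (conjHom σ), ?_⟩
  apply le_antisymm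
  · rw [Submodule.span_le]
    intro f hf
    rw [Finset.coe_image] at hf
    obtain ⟨s, hs, rfl⟩ := hf
    have : s ∈ H := by
      have : s ∈ H.toSubmodule := hS ▸ Submodule.subset_span hs
      exact this
    exact conjHom_mem_conjSub hWB this
  · intro f hf
    have h1 : conjHom σ⁻¹ f ∈ Submodule.span W (S : Set (X → B)) := by
      rw [hS]
      exact hf
    have key : ∀ g ∈ Submodule.span W (S : Set (X → B)),
        conjHom σ g ∈ Submodule.span W ((S.image (conjHom σ) : Finset (X → B)) : Set (X → B)) := by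
      intro g hg
      induction hg using Submodule.span_induction with
      | mem s hs =>
        refine Submodule.subset_span ?_
        rw [Finset.coe_image]
        exact ⟨s, hs, rfl⟩
      | zero => rw [map_zero]; exact Submodule.zero_mem _
      | add x y _ _ hx hy => rw [map_add]; exact Submodule.add_mem _ hx hy
      | smul w x _ hx => rw [conjHom_smul hWB]; exact Submodule.smul_mem _ _ hx
    have := key _ h1
    rwa [conjHom_conjHom_inv] at this

/-- If `H` consists of `G'`-fixed functions, conjugating by an element of `G'` does nothing. -/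
theorem conjSub_eq_of_mem {H : Subalgebra W (X → B)}
    (hHfix : ∀ τ ∈ G', ∀ h ∈ H, conjHom τ h = h) {τ : G} (hτ : τ ∈ G') :
    conjSub hWB τ H = H := by
  ext f
  rw [mem_conjSub]
  constructor
  · intro hf
    have h1 := hHfix τ hτ _ hf
    rw [conjHom_conjHom_inv] at h1
    rw [h1]
    exact hf
  · intro hf
    rw [hHfix τ⁻¹ (G'.inv_mem hτ) f hf]
    exact hf

/-- The conjugation closure as a supremum over the cosets of `G'`. -/
theorem galClosure_eq_iSup_quot {H : Subalgebra W (X → B)}
    (hHfix : ∀ τ ∈ G', ∀ h ∈ H, conjHom τ h = h) :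
    galClosure hWB H = ⨆ q : G ⧸ G', conjSub hWB (Quotient.out q) H := by
  apply le_antisymm
  · refine iSup_le fun σ => ?_
    obtain ⟨τ, hτ⟩ := QuotientGroup.mk_out_eq_mul G' σ
    have h1 : conjSub hWB σ H = conjSub hWB (Quotient.out (σ : G ⧸ G')) H := by
      rw [hτ, conjSub_mul, conjSub_eq_of_mem G' hWB hHfix τ.2]
    rw [h1]
    exact le_iSup (fun q : G ⧸ G' => conjSub hWB (Quotient.out q) H) _
  · exact iSup_le fun q => conjSub_le_galClosure hWB _ H

/-- The conjugation closure of a module-finite subalgebra of `G'`-fixed functions is module-finite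
when `G'` has finite index. -/
theorem galClosure_fg [Finite (G ⧸ G')] {H : Subalgebra W (X → B)}
    (hHfix : ∀ τ ∈ G', ∀ h ∈ H, conjHom τ h = h) (hH : H.toSubmodule.FG) :
    (galClosure hWB H).toSubmodule.FG := by
  classical
  have := Fintype.ofFinite (G ⧸ G')
  rw [galClosure_eq_iSup_quot G' hWB hHfix, ← Finset.sup_univ_eq_iSup]
  refine Finset.sup_induction (p := fun S : Subalgebra W (X → B) => S.toSubmodule.FG)
    Subalgebra.fg_bot_toSubmodule ?_ ?_
  · intro S hS T hT
    rw [← Subalgebra.mul_toSubmodule]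
    exact hS.mul hT
  · intro q _
    exact conjSub_fg hWB _ hH

/-- For normal `G'`, the conjugation closure of a subalgebra of `G'`-fixed functions consists of
`G'`-fixed functions. -/
theorem galClosure_fixed [G'.Normal] {H : Subalgebra W (X → B)}
    (hG'W : ∀ τ ∈ G', ∀ w : W, τ • w = w)
    (hHfix : ∀ τ ∈ G', ∀ h ∈ H, conjHom τ h = h) :
    ∀ τ ∈ G', ∀ f ∈ galClosure hWB H, conjHom τ f = f := by
  have hA : ∀ σ ∈ (G' : Set G), ∀ a : W, σ • algebraMap W B a = algebraMap W B a := by
    intro σ hσ a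
    rw [hWB, hG'W σ hσ]
  have key : galClosure hWB H ≤ fixedFun (X := X) (G' : Set G) W hA := by
    refine iSup_le fun σ f hf τ hτ => ?_
    obtain ⟨h, hh, rfl⟩ := (mem_conjSub_iff_exists hWB).mp hf
    have h1 : σ⁻¹ * τ * σ ∈ G' := by
      have := (inferInstance : G'.Normal).conj_mem τ hτ σ⁻¹
      rwa [inv_inv] at this
    have h2 : τ * σ = σ * (σ⁻¹ * τ * σ) := by group
    rw [← conjHom_mul, h2, conjHom_mul, hHfix _ h1 h hh]
  intro τ hτ f hf
  exact key hf τ hτ

end Closure

section Main

variable {G : Type*} [Group G] (G' : Subgroup G) [G'.Normal] [Fintype (G ⧸ G')]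
  {B : Type*} [CommRing B] [MulSemiringAction G B]
  {V : Type*} [AddCommGroup V] [DistribMulAction G V]
  {W : Type*} [CommRing W] [Algebra W B] [MulSemiringAction G W]
  (hWB : ∀ (σ : G) (w : W), σ • algebraMap W B w = algebraMap W B (σ • w))
  {W0 : Type*} [CommRing W0] [Algebra W0 W] [Algebra W0 B] [IsScalarTower W0 W B]

/-- The `G`-equivariant elements of a `W`-subalgebra, as a `W0`-subalgebra. -/
def fixedSub {X : Type*} [MulAction G X]
    (hW0 : ∀ (σ : G) (r : W0), σ • algebraMap W0 W r = algebraMap W0 W r)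
    (H : Subalgebra W (X → B)) : Subalgebra W0 (X → B) :=
  (H.restrictScalars W0) ⊓ fixedFun (X := X) (Set.univ : Set G) W0 (fun σ _ a => by
    rw [IsScalarTower.algebraMap_apply W0 W B, hWB, hW0])

theorem mem_fixedSub {X : Type*} [MulAction G X]
    {hW0 : ∀ (σ : G) (r : W0), σ • algebraMap W0 W r = algebraMap W0 W r}
    {H : Subalgebra W (X → B)} {f : X → B} :
    f ∈ fixedSub hWB hW0 H ↔ f ∈ H ∧ ∀ σ : G, conjHom σ f = f := by
  unfold fixedSub
  rw [Algebra.mem_inf, Subalgebra.mem_restrictScalars, mem_fixedFun]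
  simp only [Set.mem_univ, forall_true_left]

/-- **(D1), function dialect: finite Galois descent of `Δ`-stable orders.** -/
theorem exists_fixed_deltaStable
    (hG'W : ∀ τ ∈ G', ∀ w : W, τ • w = w)
    (hW0 : ∀ (σ : G) (r : W0), σ • algebraMap W0 W r = algebraMap W0 W r)
    (hfix : ∀ w : W, (∀ σ : G, σ • w = w) → w ∈ Set.range (algebraMap W0 W))
    {ι : Type*} [Fintype ι] (b bd : ι → W) (hb1 : ∑ i, b i * bd i = 1)
    (hb0 : ∀ σ : G, σ ∉ G' → ∑ i, b i * σ • bd i = 0)
    (c : W) (hc : ∑ q : G ⧸ G', (Quotient.out q : G) • c = 1)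
    (H : Subalgebra W (V → B)) (hHfix : ∀ τ ∈ G', ∀ h ∈ H, conjHom τ h = h)
    (hHfg : H.toSubmodule.FG) (hHΔ : IsDeltaStable H) :
    ∃ H0 : Subalgebra W0 (V → B),
      (∀ h ∈ H0, ∀ σ : G, conjHom σ h = h) ∧ IsDeltaStable H0 ∧ H0.toSubmodule.FG ∧
      H.toSubmodule ≤ Submodule.span W (H0 : Set (V → B)) ∧
      (∀ h ∈ H0, h ∈ galClosure hWB H) := by
  classical
  -- the conjugation closure
  set H'' := galClosure hWB H with hH''
  have hΔ'' : IsDeltaStable H'' := isDeltaStable_galClosure hWB hHΔ
  have hfix'' : ∀ τ ∈ G', ∀ f ∈ H'', conjHom τ f = f := galClosure_fixed G' hWB hG'W hHfix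
  have hstab'' : ∀ σ : G, ∀ f ∈ H'', conjHom σ f ∈ H'' :=
    fun σ f hf => conjHom_mem_galClosure hWB σ hf
  have hfg'' : H''.toSubmodule.FG := galClosure_fg G' hWB hHfix hHfg
  -- semilinearity
  have hsl : ∀ (X : Type _) [MulAction G X] (σ : G) (r : W) (n : X → B),
      conjEnd G B X σ (r • n) = (σ • r) • conjEnd G B X σ n :=
    fun X _ σ r n => conjHom_smul hWB σ r n
  set H0 : Subalgebra W0 (V → B) := fixedSub hWB hW0 H'' with hH0
  have hmem0 : ∀ f, f ∈ H0 ↔ f ∈ H'' ∧ ∀ σ : G, conjHom σ f = f := fun f => mem_fixedSub hWB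
  -- (D1a): `H''` is spanned by `H0`
  have hspan : Submodule.span W (H0 : Set (V → B)) = H''.toSubmodule := by
    have := span_fixed_eq_of_quot G' (conjEnd G B V) b bd hb1 hb0 hG'W (hsl V) H''.toSubmodule
      (fun σ m hm => hstab'' σ m hm) (fun τ hτ m hm => hfix'' τ hτ m hm)
    rw [← this]
    congr 1
    ext f
    exact hmem0 f
  -- fixed scalars act through `W0`
  have hsmul0 : ∀ (X : Type _) (r : W), (∀ σ : G, σ • r = r) → ∀ (P : Submodule W0 (X → B)),
      ∀ p ∈ P, r • p ∈ P := by
    intro X r hr P p hp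
    obtain ⟨r0, rfl⟩ := hfix r hr
    rw [algebraMap_smul]
    exact P.smul_mem r0 hp
  -- finite generation
  have hfg0 : H0.toSubmodule.FG := by
    have h1 : (Submodule.span W (H0 : Set (V → B))).FG := by rw [hspan]; exact hfg''
    obtain ⟨S, hS0, hS⟩ := (Submodule.fg_span_iff_fg_span_finset_subset _).mp h1
    refine ⟨S, ?_⟩
    apply le_antisymm
    · rw [Submodule.span_le]
      exact hS0
    · intro x hx
      have hx0 : x ∈ H0 := hx
      have hxs : x ∈ Submodule.span W
          (((Submodule.span W0 (S : Set (V → B))).toAddSubgroup : AddSubgroup (V → B)) :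
            Set (V → B)) := by
        have h2 : x ∈ Submodule.span W (S : Set (V → B)) := by
          rw [← hS]
          exact Submodule.subset_span hx0
        exact Submodule.span_mono (fun s hs => Submodule.subset_span hs) h2
      have := mem_of_mem_span_of_fixed_quot G' (conjEnd G B V) c hc hG'W (hsl V)
        (Submodule.span W0 (S : Set (V → B))).toAddSubgroup
        (fun p hp σ => by
          have hp' : p ∈ Submodule.span W0 (S : Set (V → B)) := hp
          have hle : Submodule.span W0 (S : Set (V → B)) ≤ H0.toSubmodule :=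
            Submodule.span_le.mpr hS0
          exact ((hmem0 p).mp (hle hp')).2 σ)
        (fun r hr p hp => hsmul0 V r hr (Submodule.span W0 (S : Set (V → B))) p hp) hxs
        (fun σ => ((hmem0 x).mp hx0).2 σ)
      exact this
  refine ⟨H0, fun h hh σ => ((hmem0 h).mp hh).2 σ, ?_, hfg0, ?_, fun h hh => ((hmem0 h).mp hh).1⟩
  · -- `Δ`-stability
    intro f hf
    have hf'' : f ∈ H'' := ((hmem0 f).mp hf).1
    have h1 : deltaHom W B V f ∈ prodAlg H'' := hΔ'' f hf''
    have h1' : deltaHom W B V f ∈ Subalgebra.toSubmodule (prodAlg H'') := h1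
    rw [prodAlg_toSubmodule] at h1'
    -- the bilinear map `(h₁, h₂) ↦ h₁ ⊗ h₂`
    let m : (V → B) →ₗ[W] (V → B) →ₗ[W] (V × V → B) :=
      (LinearMap.mul W (V × V → B)).compl₁₂ (fstHom W B V).toLinearMap (sndHom W B V).toLinearMap
    have hm : ∀ h₁ h₂ : V → B, m h₁ h₂ = fun p : V × V => h₁ p.1 * h₂ p.2 := fun _ _ => rfl
    set P2 : AddSubgroup (V × V → B) :=
      (Subalgebra.toSubmodule (prodAlg H0)).toAddSubgroup with hP2
    have h2 : deltaHom W B V f ∈ Submodule.span W (P2 : Set (V × V → B)) := by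
      refine Submodule.span_le.mpr ?_ h1'
      rintro _ ⟨h₁, hh₁, h₂, hh₂, rfl⟩
      have e1 : h₁ ∈ Submodule.span W (H0 : Set (V → B)) := by rw [hspan]; exact hh₁
      have e2 : h₂ ∈ Submodule.span W (H0 : Set (V → B)) := by rw [hspan]; exact hh₂
      have e3 : m h₁ h₂ ∈ Submodule.map₂ m (Submodule.span W (H0 : Set (V → B)))
          (Submodule.span W (H0 : Set (V → B))) := Submodule.apply_mem_map₂ m e1 e2
      rw [Submodule.map₂_span_span] at e3
      rw [← hm]
      refine Submodule.span_mono ?_ e3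
      rintro _ ⟨a, ha, b', hb', rfl⟩
      change (fun p : V × V => a p.1 * b' p.2) ∈ prodAlg H0
      exact mul_mem_prodAlg ha hb'
    have hfixΔ : ∀ σ : G, conjEnd G B (V × V) σ (deltaHom W B V f) = deltaHom W B V f := by
      intro σ
      rw [conjEnd_apply, ← deltaHom_conjHom, ((hmem0 f).mp hf).2 σ]
    have hPfix : ∀ p ∈ P2, ∀ σ : G, conjEnd G B (V × V) σ p = p := by
      have hle : prodAlg H0 ≤ fixedFun (X := V × V) (Set.univ : Set G) W0 (fun σ _ a => by
          rw [IsScalarTower.algebraMap_apply W0 W B, hWB, hW0]) := by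
        refine sup_le ?_ ?_
        · rintro _ ⟨h, hh, rfl⟩ σ _
          change conjHom σ (fstHom W0 B V h) = fstHom W0 B V h
          rw [← fstHom_conjHom, ((hmem0 h).mp hh).2 σ]
        · rintro _ ⟨h, hh, rfl⟩ σ _
          change conjHom σ (sndHom W0 B V h) = sndHom W0 B V h
          rw [← sndHom_conjHom, ((hmem0 h).mp hh).2 σ]
      intro p hp σ
      exact hle hp σ (Set.mem_univ σ)
    have := mem_of_mem_span_of_fixed_quot G' (conjEnd G B (V × V)) c hc hG'W (hsl (V × V)) P2 hPfix
      (fun r hr p hp => hsmul0 (V × V) r hr (Subalgebra.toSubmodule (prodAlg H0)) p hp) h2 hfixΔ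
    exact this
  · rw [hspan]
    exact le_galClosure hWB H

end Main

end Fermat.Agent.FF2.R1D
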