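/-
MOONSHOT S19 (#1637), block (R1)(iii), part (D1g): a GALOIS BASIS FROM ONE ELEMENT WITH UNIT
DIFFERENCES (Lagrange interpolation; no field theory).  helper12.  Mathlib + FF2/R1D/QuotDescent.

`G` acts on a commutative ring `W` by ring automorphisms, `G'` is a subgroup of finite index and
`θ : W` is `G'`-fixed with `σ • θ - θ` a unit of `W` for every `σ ∉ G'` (model: `W = Λ_n`,
`θ` a Teichmüller lift of a generator of `𝔽_{ℓ^n}`, `G = D_P`, `G' = Γ_n`: then `σ • θ - θ` is a
unit because `σ` moves the residue class of `θ`).  The coefficients `b i` of the Lagrange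
polynomial `L = ∏_{q ≠ 1} (X - θ_q) / (θ - θ_q)` together with `bd i = θ ^ i` satisfy
`∑ i, b i * σ • bd i = L (σ • θ) = [σ ∈ G']`: a Galois basis in the sense of `QuotDescent.lean`.
-/
import Mathlib
import Fermat.Agent.FF2.R1D.QuotDescent

set_option autoImplicit false

namespace Fermat.Agent.FF2.R1D

open Polynomial
open scoped BigOperators

section

variable {G : Type*} [Group G] (G' : Subgroup G) [Fintype (G ⧸ G')]
  {W : Type*} [CommRing W] [MulSemiringAction G W]

/-- **(D1g)** A Galois basis from one element whose conjugates differ by units. -/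
theorem exists_galoisBasis_of_isUnit_sub (θ : W) (hθ : ∀ τ ∈ G', τ • θ = θ)
    (hunit : ∀ σ : G, σ ∉ G' → IsUnit (σ • θ - θ)) :
    ∃ (n : ℕ) (b bd : Fin n → W), ∑ i, b i * bd i = 1 ∧
      ∀ σ : G, σ ∉ G' → ∑ i, b i * σ • bd i = 0 := by
  classical
  -- inverse of the differences
  have hex : ∀ σ : G, ∃ u : W, σ ∉ G' → u * (σ • θ - θ) = 1 := by
    intro σ
    by_cases hσ : σ ∈ G'
    · exact ⟨0, fun h => absurd hσ h⟩
    · obtain ⟨u, hu⟩ := (hunit σ hσ).exists_left_inv
      exact ⟨u, fun _ => hu⟩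
  choose u hu using hex
  let Q : Finset (G ⧸ G') := Finset.univ.erase (((1 : G) : G ⧸ G'))
  let L : W[X] := ∏ q ∈ Q, (C (-u (Quotient.out q)) * (X - C ((Quotient.out q : G) • θ)))
  have hσθ : ∀ σ : G, (Quotient.out (σ : G ⧸ G') : G) • θ = σ • θ := by
    intro σ
    obtain ⟨τ, hτ⟩ := QuotientGroup.mk_out_eq_mul G' σ
    rw [hτ, mul_smul, hθ _ τ.2]
  have hL1 : L.eval θ = 1 := by
    simp only [L, eval_prod, eval_mul, eval_C, eval_sub, eval_X]
    refine Finset.prod_eq_one fun q hq => ?_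
    have hq' : Quotient.out q ∉ G' := fun h =>
      (Finset.ne_of_mem_erase hq) ((out_mem_iff G' q).mp h)
    have := hu _ hq'
    rw [← this]
    ring
  have hL0 : ∀ σ : G, σ ∉ G' → L.eval (σ • θ) = 0 := by
    intro σ hσ
    simp only [L, eval_prod, eval_mul, eval_C, eval_sub, eval_X]
    refine Finset.prod_eq_zero (i := (σ : G ⧸ G')) ?_ ?_
    · refine Finset.mem_erase.mpr ⟨fun h => hσ ?_, Finset.mem_univ _⟩
      have h1 := (QuotientGroup.eq (s := G')).mp h
      have h2 := G'.inv_mem h1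
      simpa using h2
    · rw [hσθ, sub_self, mul_zero]
  refine ⟨L.natDegree + 1, fun i => L.coeff i, fun i => θ ^ (i : ℕ), ?_, ?_⟩
  · rw [Fin.sum_univ_eq_sum_range (fun i => L.coeff i * θ ^ i), ← eval_eq_sum_range]
    exact hL1
  · intro σ hσ
    have : ∀ i : Fin (L.natDegree + 1), L.coeff i * σ • θ ^ (i : ℕ) =
        L.coeff i * (σ • θ) ^ (i : ℕ) := fun i => by rw [smul_pow']
    simp_rw [this]
    rw [Fin.sum_univ_eq_sum_range (fun i => L.coeff i * (σ • θ) ^ i), ← eval_eq_sum_range]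
    exact hL0 σ hσ

end

end Fermat.Agent.FF2.R1D
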