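/-
MOONSHOT S19 (#1637), block (R1)(iii), part (D1): finite Galois descent of `Δ`-stable orders,
SUBRING FORM (the scalars `W0 ≤ W` are subrings of the field/ring of values `B`; model, variant (β):
`B = ℚ̄`, `G = D_P`, `G' = Γ_n`, `W = Λ_n`, `W0 = Λ_1 = decompRing P`).  The Galois basis is produced
from one element `θ ∈ W` whose conjugates differ by units of `W` ((D1g)), the trace-one element from
`W0` being local with principal maximal ideal.  helper12.
Mathlib + FF2/R2/Delta + FF2/R1D/{QuotDescent, ConjAction, ConjDelta, ConjDescent, GaloisBasisUnit}.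
-/
import Mathlib
import Fermat.Agent.FF2.R2.Delta
import Fermat.Agent.FF2.R1D.QuotDescent
import Fermat.Agent.FF2.R1D.ConjAction
import Fermat.Agent.FF2.R1D.ConjDelta
import Fermat.Agent.FF2.R1D.ConjDescent
import Fermat.Agent.FF2.R1D.GaloisBasisUnit

set_option autoImplicit false
set_option linter.style.haveILetI false

namespace Fermat.Agent.FF2.R1D

open Fermat.Agent.FF2.R2
open scoped BigOperators

section Subring

variable {G : Type*} [Group G] {B : Type*} [CommRing B] [MulSemiringAction G B]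

/-- The induced action on a stable subring. -/
@[reducible] def subringAction (W : Subring B) (hW : ∀ σ : G, ∀ w ∈ W, σ • w ∈ W) :
    MulSemiringAction G W where
  smul σ w := ⟨σ • (w : B), hW σ w w.2⟩
  one_smul w := Subtype.ext (one_smul G (w : B))
  mul_smul σ τ w := Subtype.ext (mul_smul σ τ (w : B))
  smul_zero σ := Subtype.ext (smul_zero σ)
  smul_add σ a b := Subtype.ext (smul_add σ (a : B) (b : B))
  smul_one σ := Subtype.ext (smul_one σ)
  smul_mul σ a b := Subtype.ext (smul_mul' σ (a : B) (b : B))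

variable (G' : Subgroup G) [G'.Normal] [Fintype (G ⧸ G')]
  {V : Type*} [AddCommGroup V] [DistribMulAction G V]

/-- **(D1), subring form, with a given trace-one element.** -/
theorem exists_fixed_deltaStable_subring
    (W W0 : Subring B) (hW0W : W0 ≤ W)
    (hWstab : ∀ σ : G, ∀ w ∈ W, σ • w ∈ W)
    (hG'W : ∀ τ ∈ G', ∀ w ∈ W, τ • w = w)
    (hW0fix : ∀ σ : G, ∀ r ∈ W0, σ • r = r)
    (hfix : ∀ w ∈ W, (∀ σ : G, σ • w = w) → w ∈ W0)
    (θ : B) (hθ : θ ∈ W) (hθu : ∀ σ : G, σ ∉ G' → ∃ u ∈ W, u * (σ • θ - θ) = 1)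
    (c : B) (hcW : c ∈ W) (hc : ∑ q : G ⧸ G', (Quotient.out q : G) • c = 1)
    (H : Subalgebra W (V → B)) (hHfix : ∀ τ ∈ G', ∀ h ∈ H, conjHom τ h = h)
    (hHfg : H.toSubmodule.FG) (hHΔ : IsDeltaStable H) :
    ∃ H0 : Subalgebra W0 (V → B),
      (∀ h ∈ H0, ∀ σ : G, conjHom σ h = h) ∧ IsDeltaStable H0 ∧ H0.toSubmodule.FG ∧
      H.toSubmodule ≤ Submodule.span W (H0 : Set (V → B)) ∧
      ((∀ v w : V, (∀ h ∈ H, h v = h w) → v = w) →
        ∀ v w : V, (∀ h ∈ H0, h v = h w) → v = w) := by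
  classical
  letI : MulSemiringAction G W := subringAction W hWstab
  letI : Algebra W0 W := (Subring.inclusion hW0W).toAlgebra
  haveI : IsScalarTower W0 W B := IsScalarTower.of_algebraMap_eq (fun _ => rfl)
  have hWB : ∀ (σ : G) (w : W), σ • algebraMap W B w = algebraMap W B (σ • w) := fun _ _ => rfl
  -- the Galois basis
  obtain ⟨n, b, bd, hb1, hb0⟩ := exists_galoisBasis_of_isUnit_sub G' (W := W) ⟨θ, hθ⟩
    (fun τ hτ => Subtype.ext (hG'W τ hτ θ hθ))
    (fun σ hσ => by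
      obtain ⟨u, huW, hu⟩ := hθu σ hσ
      refine IsUnit.of_mul_eq_one (⟨u, huW⟩ : W) (Subtype.ext ?_)
      change (σ • θ - θ) * u = 1
      rw [mul_comm]
      exact hu)
  have hc' : ∑ q : G ⧸ G', (Quotient.out q : G) • (⟨c, hcW⟩ : W) = 1 := by
    apply Subtype.ext
    rw [AddSubmonoidClass.coe_finsetSum]
    exact hc
  obtain ⟨H0, h1, h2, h3, h4, _⟩ := exists_fixed_deltaStable G' hWB (W0 := W0)
    (fun τ hτ w => Subtype.ext (hG'W τ hτ w w.2))
    (fun σ r => Subtype.ext (hW0fix σ r r.2))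
    (fun w hw => ⟨⟨w, hfix w w.2 (fun σ => congrArg Subtype.val (hw σ))⟩, rfl⟩)
    b bd hb1 hb0 ⟨c, hcW⟩ hc' H hHfix hHfg hHΔ
  refine ⟨H0, h1, h2, h3, h4, fun hsep v w hvw => hsep v w fun h hh => ?_⟩
  -- separation passes to `H0` because `H ≤ W • H0`
  have key : ∀ f ∈ Submodule.span W (H0 : Set (V → B)), f v = f w := by
    intro f hf
    induction hf using Submodule.span_induction with
    | mem f hf => exact hvw f hf
    | zero => rfl
    | add f g _ _ hf hg => rw [Pi.add_apply, Pi.add_apply, hf, hg]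
    | smul r f _ hf => rw [Pi.smul_apply, Pi.smul_apply, hf]
  exact key h (h4 hh)

omit [G'.Normal] in
/-- A trace-one element of `W` when `W0` is local with principal maximal ideal `(π)` and `π` is not
a unit of `W`. -/
theorem exists_trace_one_subring
    (W W0 : Subring B) (hW0W : W0 ≤ W)
    (hWstab : ∀ σ : G, ∀ w ∈ W, σ • w ∈ W)
    (hG'W : ∀ τ ∈ G', ∀ w ∈ W, τ • w = w)
    (hW0fix : ∀ σ : G, ∀ r ∈ W0, σ • r = r)
    (hfix : ∀ w ∈ W, (∀ σ : G, σ • w = w) → w ∈ W0)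
    (θ : B) (hθ : θ ∈ W) (hθu : ∀ σ : G, σ ∉ G' → ∃ u ∈ W, u * (σ • θ - θ) = 1)
    [IsLocalRing W0] (π : W0) (hπ : IsLocalRing.maximalIdeal W0 = Ideal.span {π})
    (hπW : ∀ s ∈ W, (π : B) * s ≠ 1) :
    ∃ c ∈ W, ∑ q : G ⧸ G', (Quotient.out q : G) • c = 1 := by
  classical
  letI : MulSemiringAction G W := subringAction W hWstab
  letI : Algebra W0 W := (Subring.inclusion hW0W).toAlgebra
  obtain ⟨n, b, bd, hb1, hb0⟩ := exists_galoisBasis_of_isUnit_sub G' (W := W) ⟨θ, hθ⟩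
    (fun τ hτ => Subtype.ext (hG'W τ hτ θ hθ))
    (fun σ hσ => by
      obtain ⟨u, huW, hu⟩ := hθu σ hσ
      refine IsUnit.of_mul_eq_one (⟨u, huW⟩ : W) (Subtype.ext ?_)
      change (σ • θ - θ) * u = 1
      rw [mul_comm]
      exact hu)
  obtain ⟨c, hc⟩ := exists_qtrace_eq_one G' (R0 := W0) b bd hb1 hb0
    (fun τ hτ w => Subtype.ext (hG'W τ hτ w w.2))
    (fun σ r => Subtype.ext (hW0fix σ r r.2))
    (fun w hw => ⟨⟨w, hfix w w.2 (fun σ => congrArg Subtype.val (hw σ))⟩, rfl⟩)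
    π hπ (fun hu => by
      obtain ⟨s, hs⟩ := hu.exists_right_inv
      exact hπW s s.2 (congrArg Subtype.val hs))
  refine ⟨c, c.2, ?_⟩
  have := congrArg Subtype.val hc
  rw [AddSubmonoidClass.coe_finsetSum] at this
  exact this

/-- **(D1), subring form, all-in-one.** -/
theorem exists_fixed_deltaStable_of_theta
    (W W0 : Subring B) (hW0W : W0 ≤ W)
    (hWstab : ∀ σ : G, ∀ w ∈ W, σ • w ∈ W)
    (hG'W : ∀ τ ∈ G', ∀ w ∈ W, τ • w = w)
    (hW0fix : ∀ σ : G, ∀ r ∈ W0, σ • r = r)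
    (hfix : ∀ w ∈ W, (∀ σ : G, σ • w = w) → w ∈ W0)
    (θ : B) (hθ : θ ∈ W) (hθu : ∀ σ : G, σ ∉ G' → ∃ u ∈ W, u * (σ • θ - θ) = 1)
    [IsLocalRing W0] (π : W0) (hπ : IsLocalRing.maximalIdeal W0 = Ideal.span {π})
    (hπW : ∀ s ∈ W, (π : B) * s ≠ 1)
    (H : Subalgebra W (V → B)) (hHfix : ∀ τ ∈ G', ∀ h ∈ H, conjHom τ h = h)
    (hHfg : H.toSubmodule.FG) (hHΔ : IsDeltaStable H) :
    ∃ H0 : Subalgebra W0 (V → B),
      (∀ h ∈ H0, ∀ σ : G, conjHom σ h = h) ∧ IsDeltaStable H0 ∧ H0.toSubmodule.FG ∧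
      H.toSubmodule ≤ Submodule.span W (H0 : Set (V → B)) ∧
      ((∀ v w : V, (∀ h ∈ H, h v = h w) → v = w) →
        ∀ v w : V, (∀ h ∈ H0, h v = h w) → v = w) := by
  obtain ⟨c, hcW, hc⟩ := exists_trace_one_subring G' W W0 hW0W hWstab hG'W hW0fix hfix θ hθ hθu
    π hπ hπW
  exact exists_fixed_deltaStable_subring G' W W0 hW0W hWstab hG'W hW0fix hfix θ hθ hθu c hcW hc
    H hHfix hHfg hHΔ

end Subring

end Fermat.Agent.FF2.R1D
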